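import Mathlib
import Fermat.Prelude.Def_ModularCurve_LaurentCoeff

/-!
# P-ES / KL-M-QEXP (row 497), part 1: coefficientwise lifting and reduction of Laurent series

Mathlib + `coeffMap` only.

* `coeffMap_inj` : `coeffMap f` is injective for injective `f`;
* `exists_coeffMap_eq` : a Laurent series all of whose coefficients lie in the range of an
  injective `f` is of the form `coeffMap f g`;
* `coeffMap_algebraMap_gen`, `coeffMap_aeval` : compatibility with constants and with
  polynomial evaluation;
* `coeffMap_ne_zero_of_coeff` : a series with a coefficient outside `ker f` has nonzero image.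
-/

set_option autoImplicit false
set_option linter.unusedSectionVars false

noncomputable section

namespace Fermat.Agent.H48.QExp

open Polynomial ModularCurve

section Lift

variable {R S : Type*} [CommRing R] [CommRing S] (f : R →+* S)

theorem coeffMap_inj (hf : Function.Injective f) : Function.Injective (coeffMap f) := by
  intro x y h
  ext n
  apply hf
  have := congrArg (fun z => z.coeff n) h
  simpa using this

theorem exists_coeffMap_eq (hf : Function.Injective f) (y : LaurentSeries S)
    (hy : ∀ n : ℤ, y.coeff n ∈ f.range) : ∃ g : LaurentSeries R, coeffMap f g = y := by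
  classical
  choose c hc using hy
  have hsupp : Function.support c ⊆ y.support := by
    intro n hn
    rw [Function.mem_support] at hn
    rw [HahnSeries.mem_support]
    intro h0
    apply hn
    apply hf
    rw [hc n, h0, map_zero]
  refine ⟨⟨c, y.isPWO_support.mono hsupp⟩, ?_⟩
  ext n
  rw [coeffMap_coeff]
  exact hc n

theorem algebraMap_eq_single_gen (r : R) :
    algebraMap R (LaurentSeries R) r = HahnSeries.single 0 r := by
  have h1 : algebraMap R (PowerSeries R) r = PowerSeries.C r := by
    simp
  rw [HahnSeries.algebraMap_apply', h1, HahnSeries.ofPowerSeries_C]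
  rfl

theorem coeffMap_algebraMap_gen (r : R) :
    coeffMap f (algebraMap R (LaurentSeries R) r) = algebraMap S (LaurentSeries S) (f r) := by
  rw [algebraMap_eq_single_gen, algebraMap_eq_single_gen, coeffMap_single]

theorem coeffMap_comp_algebraMap :
    (coeffMap f).comp (algebraMap R (LaurentSeries R)) =
      (algebraMap S (LaurentSeries S)).comp f :=
  RingHom.ext fun r => coeffMap_algebraMap_gen f r

theorem coeffMap_aeval (x : LaurentSeries R) (p : R[X]) :
    coeffMap f (aeval x p) = aeval (coeffMap f x) (p.map f) := by
  rw [aeval_def, aeval_def, Polynomial.hom_eval₂, Polynomial.eval₂_map, coeffMap_comp_algebraMap]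

theorem coeffMap_ne_zero_of_coeff (g : LaurentSeries R) (n : ℤ) (h : f (g.coeff n) ≠ 0) :
    coeffMap f g ≠ 0 := by
  intro h0
  apply h
  have := congrArg (fun z => z.coeff n) h0
  simpa using this

end Lift

end Fermat.Agent.H48.QExp
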