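import Mathlib
import Fermat.Agent.H22.ES.KLSetting
import Fermat.Agent.H87.KL.KumGauss
import Fermat.Agent.H48.KL.QExpLift

/-!
# P-ES / KL-M-QEXP (row 497), part 2: the generic core

`E` a field with an embedding `ι : E → K₁((q))`, `A₀` a discrete valuation ring with fraction
field `K₁`.  If `E` is spanned over `K₁(x)` by `1, θ, …, θ^(n-1)` where `x`, `θ` have
`A₀`-integral `q`-expansions, `θ` is integral over `A₀[x]`, and the reductions
`1, θ̄, …, θ̄^(n-1)` in `k₀((q))` are independent over `k₀[x̄]`, then every quotient `a / b` of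
`q`-integral elements with `b` primitive lies in the Gauss closure `C(x)`.
-/

set_option autoImplicit false
set_option maxSynthPendingDepth 3
set_option linter.style.haveILetI false
set_option linter.unusedSectionVars false

noncomputable section

namespace Fermat.Agent.H48.QExp

open Polynomial ModularCurve
open Fermat.Agent.H22.KL
open Fermat.Agent.H67.KLConn (PiDvd)
open Fermat.Agent.H87.KL

section Denominators

variable {A : Type} [CommRing A] {E : Type} [Field E] [Algebra A E]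

theorem mem_chartField_iff (x c : E) :
    c ∈ chartField A E x ↔
      ∃ P Q : A[X], aeval x Q ≠ 0 ∧ c * aeval x Q = aeval x P := by
  constructor
  · intro hc
    have hc' : c ∈ Subfield.closure ((chartRing A E x).toSubring : Set E) := hc
    rw [Subfield.mem_closure_iff, Subring.closure_eq] at hc'
    obtain ⟨y, hy, z, hz, rfl⟩ := hc'
    obtain ⟨P, rfl⟩ := (mem_chartRing_iff x y).1 hy
    obtain ⟨Q, rfl⟩ := (mem_chartRing_iff x z).1 hz
    by_cases hQ : aeval x Q = 0
    · refine ⟨0, 1, by simp, ?_⟩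
      rw [hQ, div_zero, zero_mul, map_zero]
    · exact ⟨P, Q, hQ, div_mul_cancel₀ _ hQ⟩
  · rintro ⟨P, Q, hQ, h⟩
    have hc : c = aeval x P / aeval x Q := by
      rw [← h, mul_div_assoc, div_self hQ, mul_one]
    rw [hc]
    exact div_mem (Subfield.subset_closure (aeval_mem_chartRing x P))
      (Subfield.subset_closure (aeval_mem_chartRing x Q))

theorem exists_common_denominator {ι : Type*} (s : Finset ι) (x : E) (c : ι → E)
    (hc : ∀ i ∈ s, c i ∈ chartField A E x) :
    ∃ h : A[X], aeval x h ≠ 0 ∧ ∀ i ∈ s, ∃ p : A[X], c i * aeval x h = aeval x p := by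
  classical
  induction s using Finset.induction_on with
  | empty => exact ⟨1, by simp, by simp⟩
  | insert a s ha ih =>
    obtain ⟨h, hh, hp⟩ := ih fun i hi => hc i (Finset.mem_insert_of_mem hi)
    obtain ⟨P, Q, hQ, hPQ⟩ := (mem_chartField_iff x (c a)).1 (hc a (Finset.mem_insert_self a s))
    refine ⟨h * Q, by rw [map_mul]; exact mul_ne_zero hh hQ, ?_⟩
    intro i hi
    rcases Finset.mem_insert.1 hi with rfl | hi
    · refine ⟨h * P, ?_⟩
      rw [map_mul, map_mul, ← hPQ]
      ring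
    · obtain ⟨p, hp⟩ := hp i hi
      refine ⟨p * Q, ?_⟩
      rw [map_mul, map_mul, ← hp]
      ring

theorem exists_normalized [IsDomain A] [IsDiscreteValuationRing A]
    (hinj : Function.Injective (algebraMap A E)) {ϖ : A} (hϖ : Irreducible ϖ) {n : ℕ}
    (x : E) (c : Fin n → E) (h : A[X]) (hh : aeval x h ≠ 0) (p : Fin n → A[X])
    (hp : ∀ i, c i * aeval x h = aeval x (p i)) :
    ∃ (h' : A[X]) (p' : Fin n → A[X]), aeval x h' ≠ 0 ∧
      (∀ i, c i * aeval x h' = aeval x (p' i)) ∧ ¬ (C ϖ ∣ h' ∧ ∀ i, C ϖ ∣ p' i) := by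
  have hϖ0 : algebraMap A E ϖ ≠ 0 := by
    intro h0
    exact hϖ.ne_zero (hinj (by rw [h0, map_zero]))
  have key : ∀ m : ℕ, ∀ (h : A[X]) (p : Fin n → A[X]), aeval x h ≠ 0 →
      (∀ i, c i * aeval x h = aeval x (p i)) → ¬ (C ϖ) ^ (m + 1) ∣ h →
      ∃ (h' : A[X]) (p' : Fin n → A[X]), aeval x h' ≠ 0 ∧
        (∀ i, c i * aeval x h' = aeval x (p' i)) ∧ ¬ (C ϖ ∣ h' ∧ ∀ i, C ϖ ∣ p' i) := by
    intro m
    induction m with
    | zero =>
      intro h p hh hp hm
      exact ⟨h, p, hh, hp, fun hd => hm (by simpa using hd.1)⟩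
    | succ m ih =>
      intro h p hh hp hm
      by_cases hd : C ϖ ∣ h ∧ ∀ i, C ϖ ∣ p i
      · obtain ⟨⟨h₁, rfl⟩, hpd⟩ := hd
        choose p₁ hp₁ using hpd
        refine ih h₁ p₁ ?_ ?_ ?_
        · intro h0
          apply hh
          rw [map_mul, h0, mul_zero]
        · intro i
          have := hp i
          rw [hp₁ i, map_mul, map_mul, aeval_C] at this
          apply mul_left_cancel₀ hϖ0
          rw [← this]
          ring
        · intro hdvd
          apply hm
          rw [pow_succ']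
          exact mul_dvd_mul_left _ hdvd
      · exact ⟨h, p, hh, hp, hd⟩
  have hh0 : h ≠ 0 := by
    rintro rfl
    exact hh (map_zero _)
  have hnu : ¬ IsUnit (C ϖ : A[X]) := by
    rw [Polynomial.isUnit_C]
    exact hϖ.not_isUnit
  obtain ⟨m, hm⟩ := FiniteMultiplicity.of_not_isUnit hnu hh0
  exact key m h p hh hp hm

end Denominators

section Core

variable {K₁ : Type} [Field K₁] {A₀ : Type} [CommRing A₀] [IsDomain A₀]
  [IsDiscreteValuationRing A₀] [Algebra A₀ K₁] [IsFractionRing A₀ K₁]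
  {E : Type} [Field E] [Algebra K₁ E] [Algebra A₀ E] [IsScalarTower A₀ K₁ E]

theorem map_aeval_eq_coeffMap (ι : E →ₐ[K₁] LaurentSeries K₁) (x : E) (xA : LaurentSeries A₀)
    (hxA : coeffMap (algebraMap A₀ K₁) xA = ι x) (h : A₀[X]) :
    ι (aeval x h) = coeffMap (algebraMap A₀ K₁) (aeval xA h) := by
  rw [coeffMap_aeval, hxA, aeval_def, aeval_def, Polynomial.eval₂_map]
  have h1 : ι (eval₂ (algebraMap A₀ E) x h) =
      eval₂ ((ι : E →+* LaurentSeries K₁).comp (algebraMap A₀ E)) (ι x) h :=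
    Polynomial.hom_eval₂ h (algebraMap A₀ E) (ι : E →+* LaurentSeries K₁) x
  rw [h1]
  congr 1
  ext a
  simp only [RingHom.comp_apply, RingHom.coe_coe]
  rw [IsScalarTower.algebraMap_apply A₀ K₁ E, AlgHom.commutes]

theorem map_residue_eq_zero_iff {ϖ : A₀} (hϖ : Irreducible ϖ) (p : A₀[X]) :
    p.map (IsLocalRing.residue A₀) = 0 ↔ C ϖ ∣ p := by
  rw [Polynomial.C_dvd_iff_dvd_coeff]
  constructor
  · intro h i
    have hi : IsLocalRing.residue A₀ (p.coeff i) = 0 := by
      rw [← Polynomial.coeff_map, h, Polynomial.coeff_zero]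
    rw [IsLocalRing.residue_eq_zero_iff, hϖ.maximalIdeal_eq, Ideal.mem_span_singleton] at hi
    exact hi
  · intro h
    ext i
    rw [Polynomial.coeff_map, Polynomial.coeff_zero, IsLocalRing.residue_eq_zero_iff,
      hϖ.maximalIdeal_eq, Ideal.mem_span_singleton]
    exact h i

/-- **The generic core of KL-M-QEXP.** -/
theorem qexp_core (ι : E →ₐ[K₁] LaurentSeries K₁) (ϖ : A₀) (hϖ : Irreducible ϖ)
    (x θ : E) (xA θA : LaurentSeries A₀)
    (hxA : coeffMap (algebraMap A₀ K₁) xA = ι x)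
    (hθA : coeffMap (algebraMap A₀ K₁) θA = ι θ)
    (hx : Transcendental A₀ x) (hθ : θ ∈ chartClosure A₀ E x) (n : ℕ)
    (hspan : ∀ y : E, ∃ c : Fin n → E, (∀ i, c i ∈ chartField A₀ E x) ∧
      y = ∑ i, c i * θ ^ (i : ℕ))
    (hGI : ∀ p : Fin n → (IsLocalRing.ResidueField A₀)[X],
      ∑ i, aeval (coeffMap (IsLocalRing.residue A₀) xA) (p i) *
        (coeffMap (IsLocalRing.residue A₀) θA) ^ (i : ℕ) = 0 → ∀ i, p i = 0)
    (a b : E)
    (ha : ∀ m : ℤ, (ι a).coeff m ∈ (algebraMap A₀ K₁).range)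
    (hb : ∀ m : ℤ, (ι b).coeff m ∈ (algebraMap A₀ K₁).range)
    (hbu : ∃ (m : ℤ) (c : A₀), IsUnit c ∧ algebraMap A₀ K₁ c = (ι b).coeff m) :
    a / b ∈ gaussClosure A₀ E ϖ x := by
  classical
  have hφ : Function.Injective (algebraMap A₀ K₁) := IsFractionRing.injective A₀ K₁
  have hAE : Function.Injective (algebraMap A₀ E) := by
    rw [IsScalarTower.algebraMap_eq A₀ K₁ E]
    exact (algebraMap K₁ E).injective.comp hφ
  have hcm := coeffMap_inj (algebraMap A₀ K₁) hφ
  have hιinj : Function.Injective ι := (ι : E →+* LaurentSeries K₁).injective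
  -- lifts of `a`, `b`
  obtain ⟨aA, haA⟩ := exists_coeffMap_eq (algebraMap A₀ K₁) hφ (ι a) ha
  obtain ⟨bA, hbA⟩ := exists_coeffMap_eq (algebraMap A₀ K₁) hφ (ι b) hb
  obtain ⟨m₀, u, hu, hum⟩ := hbu
  have hbAu : bA.coeff m₀ = u := by
    apply hφ
    rw [hum, ← hbA, coeffMap_coeff]
  have hbred : coeffMap (IsLocalRing.residue A₀) bA ≠ 0 := by
    apply coeffMap_ne_zero_of_coeff _ bA m₀
    rw [hbAu]
    intro h0
    rw [IsLocalRing.residue_eq_zero_iff] at h0
    exact (IsLocalRing.mem_maximalIdeal u).1 h0 hu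
  have hb0 : b ≠ 0 := by
    rintro rfl
    rw [map_zero] at hbA
    have : bA = 0 := hcm (by rw [hbA, map_zero])
    rw [this, HahnSeries.coeff_zero] at hbAu
    exact hu.ne_zero hbAu.symm
  -- coordinates of `a / b`
  obtain ⟨c, hc, hy⟩ := hspan (a / b)
  obtain ⟨h₀, hh₀, hp₀⟩ := exists_common_denominator (A := A₀) Finset.univ x c
    fun i _ => hc i
  choose p₀ hp₀ using fun i => hp₀ i (Finset.mem_univ i)
  obtain ⟨h, p, hh, hp, hnorm⟩ := exists_normalized hAE hϖ x c h₀ hh₀ p₀ hp₀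
  -- the equation `h(x) * (a / b) = ∑ p_i(x) θ^i`
  have hsum : aeval x h * (a / b) = ∑ i, aeval x (p i) * θ ^ (i : ℕ) := by
    rw [hy, Finset.mul_sum]
    refine Finset.sum_congr rfl fun i _ => ?_
    rw [← hp i]
    ring
  have heq : aeval x h * a = b * ∑ i, aeval x (p i) * θ ^ (i : ℕ) := by
    rw [← hsum]
    field_simp
  -- `ϖ ∤ h`
  have hnd : ¬ C ϖ ∣ h := by
    intro hd
    apply hnorm
    refine ⟨hd, ?_⟩
    -- transport the equation to `A₀((q))`
    have heqA : aeval xA h * aA = bA * ∑ i, aeval xA (p i) * θA ^ (i : ℕ) := by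
      apply hcm
      rw [map_mul, map_mul, map_sum, haA, hbA, ← map_aeval_eq_coeffMap ι x xA hxA, ← map_mul,
        heq, map_mul, map_sum]
      congr 1
      refine Finset.sum_congr rfl fun i _ => ?_
      rw [map_mul, map_mul, map_pow, map_pow, hθA, map_aeval_eq_coeffMap ι x xA hxA]
    -- reduce modulo `ϖ`
    have hred := congrArg (coeffMap (IsLocalRing.residue A₀)) heqA
    rw [map_mul, map_mul, coeffMap_aeval, (map_residue_eq_zero_iff hϖ h).2 hd, map_zero,
      zero_mul, map_sum] at hred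
    have hS : ∑ i, aeval (coeffMap (IsLocalRing.residue A₀) xA)
        ((p i).map (IsLocalRing.residue A₀)) *
          (coeffMap (IsLocalRing.residue A₀) θA) ^ (i : ℕ) = 0 := by
      have h2 := (mul_eq_zero.1 hred.symm).resolve_left hbred
      rw [← h2]
      refine Finset.sum_congr rfl fun i _ => ?_
      rw [map_mul, map_pow, coeffMap_aeval]
    intro i
    exact (map_residue_eq_zero_iff hϖ (p i)).1 (hGI _ hS i)
  -- conclusion
  refine ⟨aeval x h, aeval_mem_chartRing x h,
    fun hd => hnd ((piDvd_aeval_iff hx ϖ h).1 hd), ?_⟩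
  rw [hsum]
  refine Subalgebra.sum_mem _ fun i _ => ?_
  refine Subalgebra.mul_mem _ ?_ (Subalgebra.pow_mem _ hθ _)
  exact (mem_chartClosure_iff x _).2 (IntX.map x (p i))

end Core

end Fermat.Agent.H48.QExp
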