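import Mathlib
import Fermat.Agent.H27.KLGB.Core
import Fermat.Agent.H22.ES.KLModel

/-!
# P-ES / KL-M-QEXP (row 497), part 3: the model-side input (statement only)

`ModelStrongBasisStatement N ℓ` : there is `θ ∈ ℤ[j(q^d) : d ∣ N] ⊆ ℤ((q))`, integral over `ℤ[j]`,
and `n` such that

* (SPAN) for every field `K₁` of characteristic zero, every element of
  `K₁(j(q^d) : d ∣ N) ⊆ K₁((q))` is a `K₁(j)`-combination of `1, θ, …, θ^(n-1)`;
* (GI) for every field `k` of characteristic `ℓ`, the series `1, θ̄, …, θ̄^(n-1)` of `k((q))` are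
  linearly independent over `k[j̄]`.

Both hold for the `θ` of `H27.KLGB.goodPrimitive_j` and `n = ψ(N)` when `ℓ ∤ N`.
The theorem `modelQExp_of_strongBasis` (module `QExpModel`) deduces
`H22.KL.ModelQExpStatement N ℓ jq` from it.
-/

set_option autoImplicit false

noncomputable section

namespace Fermat.Agent.H48.QExp

open Polynomial ModularCurve Fermat.Agent.H27 Fermat.Agent.H27.KLGB

/-- the model-side input of KL-M-QEXP for the chart `x = j`. -/
def ModelStrongBasisStatement (N ℓ : ℕ) : Prop :=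
  ∃ (θ : LaurentSeries ℤ) (P : Polynomial (Polynomial ℤ)) (n : ℕ),
    θ ∈ Algebra.adjoin ℤ (gensR ℤ N) ∧ P.Monic ∧
    (P.map (evalAt (jqModC ℤ))).eval θ = 0 ∧
    (∀ (K₁ : Type) [Field K₁] [Algebra ℚ K₁] (y : LaurentSeries K₁),
      y ∈ laurentBaseChange K₁ (modularFunctionFieldFull N) →
      ∃ c : Fin n → LaurentSeries K₁,
        (∀ i, c i ∈ IntermediateField.adjoin K₁ {jqModC K₁}) ∧
        y = ∑ i, c i * (coeffMap (Int.castRingHom K₁) θ) ^ (i : ℕ)) ∧
    (∀ (k : Type) [Field k] [CharP k ℓ] (p : Fin n → k[X]),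
      ∑ i, aeval (jqModC k) (p i) * (coeffMap (Int.castRingHom k) θ) ^ (i : ℕ) = 0 →
        ∀ i, p i = 0)

end Fermat.Agent.H48.QExp
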