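import Mathlib
import Fermat.Agent.H48.KL.QExpCore
import Fermat.Agent.H48.KL.QExpModelDefs

/-!
# P-ES / KL-M-QEXP (row 497), part 4: from the model-side input to `ModelQExpStatement`

`modelQExp_of_strongBasis : ModelStrongBasisStatement N ℓ → H22.KL.ModelQExpStatement N ℓ jq`.
All adapters between the model (`θ ∈ ℤ((q))`, arbitrary fields `K₁`, `k`) and the abstract
discrete valuation ring `A₀` live here.
-/

set_option autoImplicit false
set_option maxSynthPendingDepth 3
set_option linter.style.haveILetI false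
set_option linter.unusedSectionVars false

noncomputable section

namespace Fermat.Agent.H48.QExp

open Polynomial ModularCurve
open Fermat.Agent.H22.KL
open Fermat.Agent.H67.KLConn (PiDvd)
open Fermat.Agent.H87.KL
open Fermat.Agent.H27 Fermat.Agent.H27.KLGB

section Membership

variable (K₁ : Type) [Field K₁] [Algebra ℚ K₁] (N : ℕ) [NeZero N]

theorem coeffEmb_jq : coeffEmb K₁ jq = jqModC K₁ := by
  rw [← jqModC_rat, coeffEmb, coeffMap_jqModC]

/-- the image of `θ ∈ ℤ[j(q^d) : d ∣ N]` in `K₁((q))` lies in the model field. -/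
theorem coeffMap_int_mem_laurentBaseChange {θ : LaurentSeries ℤ}
    (hθ : θ ∈ Algebra.adjoin ℤ (gensR ℤ N)) :
    coeffMap (Int.castRingHom K₁) θ ∈ laurentBaseChange K₁ (modularFunctionFieldFull N) := by
  induction hθ using Algebra.adjoin_induction with
  | mem y hy =>
    obtain ⟨d, hd, hdN, rfl⟩ := hy
    haveI := hd
    have h1 : coeffMap (Int.castRingHom K₁) (qExpand ℤ d (jqModC ℤ)) =
        coeffEmb K₁ (qExpand ℚ d jq) := by
      rw [coeffMap_qExpand, coeffMap_jqModC, coeffEmb, coeffMap_qExpand, ← jqModC_rat,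
        coeffMap_jqModC]
    rw [h1]
    exact coeffEmb_mem_laurentBaseChange K₁ (jqd_mem_full N hdN)
  | algebraMap n =>
    rw [coeffMap_algebraMap_int]
    exact intCast_mem _ n
  | add y z _ _ hy hz => rw [map_add]; exact add_mem hy hz
  | mul y z _ _ hy hz => rw [map_mul]; exact mul_mem hy hz

end Membership

section Adapters

variable {K₁ : Type} [Field K₁] [Algebra ℚ K₁] {N : ℕ} [NeZero N]
  {A₀ : Type} [CommRing A₀] [IsDomain A₀] [IsDiscreteValuationRing A₀]
  [Algebra A₀ K₁] [IsFractionRing A₀ K₁]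
  [Algebra A₀ (ModelField K₁ N)] [IsScalarTower A₀ K₁ (ModelField K₁ N)]

/-- the inclusion `E₀ ⊆ K₁((q))` as an algebra homomorphism. -/
abbrev modelVal (K₁ : Type) [Field K₁] [Algebra ℚ K₁] (N : ℕ) :
    ModelField K₁ N →ₐ[K₁] LaurentSeries K₁ :=
  (laurentBaseChange K₁ (modularFunctionFieldFull N)).val

theorem modelVal_algebraMap (a : A₀) :
    modelVal K₁ N (algebraMap A₀ (ModelField K₁ N) a) =
      algebraMap K₁ (LaurentSeries K₁) (algebraMap A₀ K₁ a) := by
  rw [IsScalarTower.algebraMap_apply A₀ K₁ (ModelField K₁ N), AlgHom.commutes]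

theorem transcendental_model (x : ModelField K₁ N)
    (hx : (x : LaurentSeries K₁) = jqModC K₁) : Transcendental A₀ x := by
  have h1 : Transcendental K₁ (jqModC K₁) :=
    P2MW.S_ModularCurve_coeff_jqModC_neg_one.ModularCurve.CharLRows.transcendental_jqModC K₁
  have h2 : Transcendental K₁ x := by
    intro halg
    apply h1
    rw [← hx]
    exact halg.algHom (modelVal K₁ N)
  exact h2.restrictScalars (IsFractionRing.injective A₀ K₁)

/-- `K₁(j) ⊆ K₁((q))` is the image of `chartField A₀ E₀ x`. -/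
theorem exists_mem_chartField (x : ModelField K₁ N)
    (hx : (x : LaurentSeries K₁) = jqModC K₁) (z : LaurentSeries K₁)
    (hz : z ∈ IntermediateField.adjoin K₁ {jqModC K₁}) :
    ∃ z' : ModelField K₁ N, z' ∈ chartField A₀ (ModelField K₁ N) x ∧
      (z' : LaurentSeries K₁) = z := by
  have hconst : ∀ c : K₁, algebraMap K₁ (LaurentSeries K₁) c ∈
      (chartField A₀ (ModelField K₁ N) x).map
        (modelVal K₁ N : ModelField K₁ N →+* LaurentSeries K₁) := by
    intro c
    obtain ⟨a, b, hb, rfl⟩ := IsFractionRing.div_surjective (A := A₀) c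
    refine ⟨algebraMap A₀ (ModelField K₁ N) a / algebraMap A₀ (ModelField K₁ N) b, ?_, ?_⟩
    · exact div_mem
        (Subfield.subset_closure (Subalgebra.algebraMap_mem (chartRing A₀ _ x) a))
        (Subfield.subset_closure (Subalgebra.algebraMap_mem (chartRing A₀ _ x) b))
    · show modelVal K₁ N _ = _
      rw [map_div₀, modelVal_algebraMap, modelVal_algebraMap, map_div₀]
  let T : IntermediateField K₁ (LaurentSeries K₁) :=
    ((chartField A₀ (ModelField K₁ N) x).map
      (modelVal K₁ N : ModelField K₁ N →+* LaurentSeries K₁)).toIntermediateField hconst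
  have hj : jqModC K₁ ∈ T := by
    refine ⟨x, ?_, hx⟩
    exact Subfield.subset_closure (Algebra.self_mem_adjoin_singleton A₀ x)
  have hle : IntermediateField.adjoin K₁ {jqModC K₁} ≤ T :=
    IntermediateField.adjoin_le_iff.2 (Set.singleton_subset_iff.2 hj)
  obtain ⟨z', hz', h⟩ := hle hz
  exact ⟨z', hz', h⟩

/-- the residue field of `A₀` has characteristic `ℓ`. -/
theorem charP_residueField {ℓ : ℕ} (hℓ : ℓ.Prime) (hu : ¬ IsUnit ((ℓ : ℕ) : A₀)) :
    CharP (IsLocalRing.ResidueField A₀) ℓ := by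
  apply ringChar.of_eq
  apply CharP.ringChar_of_prime_eq_zero hℓ
  have h1 : IsLocalRing.residue A₀ ((ℓ : ℕ) : A₀) = 0 := by
    rw [IsLocalRing.residue_eq_zero_iff]
    exact (IsLocalRing.mem_maximalIdeal _).2 hu
  rw [map_natCast] at h1
  exact h1

/-- `θ` is integral over `A₀[x]`. -/
theorem mem_chartClosure_model (x : ModelField K₁ N)
    (hx : (x : LaurentSeries K₁) = jqModC K₁) (θ : LaurentSeries ℤ)
    (P : Polynomial (Polynomial ℤ)) (hP : P.Monic)
    (hPθ : (P.map (evalAt (jqModC ℤ))).eval θ = 0)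
    (θE : ModelField K₁ N) (hθE : (θE : LaurentSeries K₁) = coeffMap (Int.castRingHom K₁) θ) :
    θE ∈ chartClosure A₀ (ModelField K₁ N) x := by
  rw [mem_chartClosure_iff]
  refine ⟨P.map (Polynomial.mapRingHom (Int.castRingHom A₀)), hP.map _, ?_⟩
  rw [Polynomial.eval₂_map]
  apply (modelVal K₁ N : ModelField K₁ N →+* LaurentSeries K₁).injective
  rw [map_zero]
  have h1 := Polynomial.hom_eval₂ P ((evX (A := A₀) x).comp
    (Polynomial.mapRingHom (Int.castRingHom A₀)))
    (modelVal K₁ N : ModelField K₁ N →+* LaurentSeries K₁) θE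
  rw [h1]
  have h2 : (modelVal K₁ N : ModelField K₁ N →+* LaurentSeries K₁).comp
      ((evX (A := A₀) x).comp (Polynomial.mapRingHom (Int.castRingHom A₀))) =
        evalAt (jqModC K₁) := by
    apply Polynomial.ringHom_ext
    · intro n
      simp [evalAt, evX]
    · simp only [RingHom.comp_apply, Polynomial.coe_mapRingHom, Polynomial.map_X, evX_apply,
        aeval_X, evalAt, Polynomial.coe_eval₂RingHom, Polynomial.eval₂_X]
      exact hx
  rw [h2]
  have h3 := eval_map_coeffMap (Int.castRingHom K₁) P _ _ hPθ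
  rw [coeffMap_jqModC, Polynomial.eval_map] at h3
  have h4 : (modelVal K₁ N : ModelField K₁ N →+* LaurentSeries K₁) θE =
      coeffMap (Int.castRingHom K₁) θ := hθE
  rw [h4]
  exact h3

end Adapters

/-- **KL-M-QEXP from the model-side input.** -/
theorem modelQExp_of_strongBasis (N ℓ : ℕ) [NeZero N] (hℓ : ℓ.Prime)
    (h : ModelStrongBasisStatement N ℓ) : ModelQExpStatement N ℓ jq := by
  obtain ⟨θ, P, n, hθmem, hPm, hPθ, hspan, hGI⟩ := h
  intro K₁ _ _ _ A₀ _ _ _ _ _ _ _ hu ϖ hϖ x hx a b ha hb hbu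
  have hx' : (x : LaurentSeries K₁) = jqModC K₁ := by rw [hx, coeffEmb_jq]
  haveI := charP_residueField (A₀ := A₀) hℓ hu
  let θE : ModelField K₁ N :=
    ⟨coeffMap (Int.castRingHom K₁) θ, coeffMap_int_mem_laurentBaseChange K₁ N hθmem⟩
  have hθE : (θE : LaurentSeries K₁) = coeffMap (Int.castRingHom K₁) θ := rfl
  refine qexp_core (modelVal K₁ N) ϖ hϖ x θE (jqModC A₀) (coeffMap (Int.castRingHom A₀) θ)
    ?_ ?_ (transcendental_model x hx') (mem_chartClosure_model x hx' θ P hPm hPθ θE hθE) n
    ?_ ?_ a b ha hb hbu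
  · rw [coeffMap_jqModC]
    exact hx'.symm
  · rw [coeffMap_coeffMap]
    exact coeffMap_congr (RingHom.ext_int _ _) θ
  · intro y
    obtain ⟨cL, hcL, hy⟩ := hspan K₁ (y : LaurentSeries K₁) y.2
    choose c hc hcv using fun i => exists_mem_chartField (A₀ := A₀) x hx' (cL i) (hcL i)
    refine ⟨c, hc, ?_⟩
    apply (modelVal K₁ N : ModelField K₁ N →+* LaurentSeries K₁).injective
    rw [map_sum]
    refine Eq.trans hy (Finset.sum_congr rfl fun i _ => ?_)
    rw [map_mul, map_pow]
    exact congrArg (· * _) (hcv i).symm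
  · intro p hp
    apply hGI (IsLocalRing.ResidueField A₀) p
    rw [coeffMap_jqModC, coeffMap_coeffMap] at hp
    rw [← hp]
    refine Finset.sum_congr rfl fun i _ => ?_
    have h1 : coeffMap ((IsLocalRing.residue A₀).comp (Int.castRingHom A₀)) θ =
        coeffMap (Int.castRingHom (IsLocalRing.ResidueField A₀)) θ :=
      coeffMap_congr (RingHom.ext_int _ _) θ
    rw [h1]

end Fermat.Agent.H48.QExp
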