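import Mathlib
import Fermat.Agent.H48.KL.QExpModel
import Fermat.Agent.H66.KLM.StrongBasis

/-!
# P-ES / KL-M-QEXP (row 497): `ModelQExpStatement N ℓ jq` for every prime `ℓ ∤ N`

The `q`-expansion principle in Gauss form for the chart `x = j`: generic core `qexp_core`
(helper48) applied to the strong good basis `1, θ, …, θ^(ψ(N)-1)` (helper27 `goodPrimitive_j_full`,
helper66 `modelStrongBasis`).
-/

set_option autoImplicit false

namespace Fermat.Agent.H48.QExp

open ModularCurve

/-- **KL-M-QEXP, chart `x = j`** (row 497). -/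
theorem modelQExp_j (N ℓ : ℕ) [NeZero N] (hℓ : ℓ.Prime) (hN : ¬ ℓ ∣ N) :
    Fermat.Agent.H22.KL.ModelQExpStatement N ℓ jq :=
  modelQExp_of_strongBasis N ℓ hℓ (Fermat.Agent.H66.KLM.modelStrongBasis N ℓ hℓ hN)

end Fermat.Agent.H48.QExp
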