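/-
helper48 (P-ES / KL-NORM-KUM, row 438): the Kummer cover `E₁ = E(s)`, `s ^ e = x - c`:
power basis `1, s, …, s^(e-1)` over `E` and coefficient calculus (`kumSum`).
Namespace `Fermat.Agent.H48.Kum`.
-/
import Fermat.Agent.H91.KLNorm.Interfaces2

set_option autoImplicit false
set_option maxSynthPendingDepth 3
set_option linter.style.haveILetI false
set_option linter.unusedSectionVars false

noncomputable section

open Polynomial IntermediateField

namespace Fermat.Agent.H48.Kum

open Fermat.Agent.H91.KLNorm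

section Basic

variable {A₀ : Type} [CommRing A₀] {E : Type} [Field E] [Algebra A₀ E]
variable (x : E) (c : A₀) (e : ℕ) [Fact (Irreducible (KumPoly A₀ x c e))]

theorem kumRoot_pow : kumRoot A₀ x c e ^ e =
    algebraMap E (KumField A₀ x c e) (x - algebraMap A₀ E c) := by
  have h := AdjoinRoot.eval₂_root (KumPoly A₀ x c e)
  simp only [KumPoly, eval₂_sub, eval₂_pow, eval₂_X, eval₂_C] at h
  rw [sub_eq_zero] at h
  exact h

theorem kumPoly_natDegree (he : 0 < e) : (KumPoly A₀ x c e).natDegree = e :=
  natDegree_X_pow_sub_C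

theorem kumPoly_ne_zero (he : 0 < e) : KumPoly A₀ x c e ≠ 0 :=
  X_pow_sub_C_ne_zero he _

/-- the power basis `1, s, …, s^(e-1)` of `E₁` over `E` -/
def kumPB (he : 0 < e) : PowerBasis E (KumField A₀ x c e) :=
  AdjoinRoot.powerBasis (kumPoly_ne_zero x c e he)

theorem kumPB_dim (he : 0 < e) : (kumPB (A₀ := A₀) x c e he).dim = e := by
  rw [kumPB, AdjoinRoot.powerBasis_dim, kumPoly_natDegree x c e he]

theorem kumPB_gen (he : 0 < e) : (kumPB (A₀ := A₀) x c e he).gen = kumRoot A₀ x c e := by
  rw [kumPB, AdjoinRoot.powerBasis_gen]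

/-- the basis `1, s, …, s^(e-1)` of `E₁` over `E`, indexed by `Fin e` -/
def kumBasis (he : 0 < e) : Module.Basis (Fin e) E (KumField A₀ x c e) :=
  (kumPB (A₀ := A₀) x c e he).basis.reindex (finCongr (kumPB_dim x c e he))

theorem kumBasis_apply (he : 0 < e) (k : Fin e) :
    kumBasis (A₀ := A₀) x c e he k = kumRoot A₀ x c e ^ (k : ℕ) := by
  rw [kumBasis, Module.Basis.reindex_apply, PowerBasis.coe_basis, kumPB_gen]
  rfl

/-- the element `∑ f(u k) s^k` -/
def kumSum (u : Fin e → E) : KumField A₀ x c e :=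
  ∑ k : Fin e, algebraMap E (KumField A₀ x c e) (u k) * kumRoot A₀ x c e ^ (k : ℕ)

theorem kumSum_eq (he : 0 < e) (u : Fin e → E) :
    kumSum (A₀ := A₀) x c e u = (kumBasis (A₀ := A₀) x c e he).equivFun.symm u := by
  rw [Module.Basis.equivFun_symm_apply, kumSum]
  refine Finset.sum_congr rfl fun k _ => ?_
  rw [kumBasis_apply, Algebra.smul_def]

theorem kumSum_injective (he : 0 < e) :
    Function.Injective (kumSum (A₀ := A₀) x c e) := by
  intro u u' h
  rw [kumSum_eq x c e he, kumSum_eq x c e he] at h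
  exact (kumBasis (A₀ := A₀) x c e he).equivFun.symm.injective h

theorem kumSum_surjective (he : 0 < e) :
    Function.Surjective (kumSum (A₀ := A₀) x c e) := by
  intro t
  refine ⟨(kumBasis (A₀ := A₀) x c e he).equivFun t, ?_⟩
  rw [kumSum_eq x c e he, LinearEquiv.symm_apply_apply]

theorem kumSum_add (u u' : Fin e → E) :
    kumSum (A₀ := A₀) x c e (u + u') = kumSum x c e u + kumSum x c e u' := by
  simp only [kumSum, Pi.add_apply, map_add, add_mul, Finset.sum_add_distrib]

theorem kumSum_zero : kumSum (A₀ := A₀) x c e (0 : Fin e → E) = 0 := by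
  simp [kumSum]

/-- multiplication by an element of `E` acts coefficientwise -/
theorem kumSum_mul_left (y : E) (u : Fin e → E) :
    algebraMap E (KumField A₀ x c e) y * kumSum (A₀ := A₀) x c e u =
      kumSum x c e (fun k => y * u k) := by
  simp only [kumSum, Finset.mul_sum, map_mul, mul_assoc]

/-- the image of `E` consists of the sums with only a constant term -/
theorem algebraMap_eq_kumSum (he : 0 < e) (y : E) :
    algebraMap E (KumField A₀ x c e) y =
      kumSum (A₀ := A₀) x c e (fun k => if (k : ℕ) = 0 then y else 0) := by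
  rw [kumSum, Finset.sum_eq_single (⟨0, he⟩ : Fin e)]
  · simp
  · intro k _ hk
    have : (k : ℕ) ≠ 0 := fun h => hk (Fin.ext h)
    simp [this]
  · intro h
    exact absurd (Finset.mem_univ _) h

end Basic

end Fermat.Agent.H48.Kum
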