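/-
helper48 (P-ES / KL-NORM-KUM, row 438): the cyclic automorphism `σ : s ↦ ζ s` of the Kummer cover
and its fixed field.
Namespace `Fermat.Agent.H48.Kum`.
-/
import Fermat.Agent.H48.KL.KumBasic

set_option autoImplicit false
set_option maxSynthPendingDepth 3
set_option linter.style.haveILetI false
set_option linter.unusedSectionVars false

noncomputable section

open Polynomial IntermediateField

namespace Fermat.Agent.H48.Kum

open Fermat.Agent.H91.KLNorm

section Aut

variable {A₀ : Type} [CommRing A₀] {E : Type} [Field E] [Algebra A₀ E]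
variable (x : E) (c : A₀) (e : ℕ) [Fact (Irreducible (KumPoly A₀ x c e))]

theorem exists_aut (he : 0 < e) (hinj : Function.Injective (algebraMap A₀ E)) (ζ : A₀)
    (hζ : IsPrimitiveRoot ζ e) :
    ∃ σ : KumField A₀ x c e ≃ₐ[E] KumField A₀ x c e,
      σ (kumRoot A₀ x c e) = algebraMap A₀ (KumField A₀ x c e) ζ * kumRoot A₀ x c e ∧
      σ ^ e = 1 ∧
      ∀ y : KumField A₀ x c e, σ y = y → y ∈ (algebraMap E (KumField A₀ x c e)).range := by
  have hζE : IsPrimitiveRoot (algebraMap A₀ E ζ) e := hζ.map_of_injective hinj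
  haveI : NeZero e := ⟨he.ne'⟩
  let η : rootsOfUnity e E := hζE.toRootsOfUnity
  have hη : ((η : Eˣ) : E) = algebraMap A₀ E ζ := rfl
  let σ := autAdjoinRootXPowSubC e (x - algebraMap A₀ E c) η
  have hσs : σ (kumRoot A₀ x c e) =
      algebraMap A₀ (KumField A₀ x c e) ζ * kumRoot A₀ x c e := by
    show autAdjoinRootXPowSubC e (x - algebraMap A₀ E c) η (AdjoinRoot.root _) = _
    rw [autAdjoinRootXPowSubC_root, Algebra.smul_def, hη,
      ← IsScalarTower.algebraMap_apply A₀ E (KumField A₀ x c e)]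
  refine ⟨σ, hσs, ?_, ?_⟩
  · show (autAdjoinRootXPowSubC e (x - algebraMap A₀ E c) η) ^ e = 1
    rw [← map_pow]
    have : η ^ e = 1 := by
      apply Subtype.ext
      apply Units.ext
      push_cast
      rw [hη]
      exact hζE.pow_eq_one
    rw [this, map_one]
  · intro y hy
    obtain ⟨u, rfl⟩ := kumSum_surjective (A₀ := A₀) x c e he y
    have hσu : σ (kumSum (A₀ := A₀) x c e u) =
        kumSum x c e (fun k => u k * (algebraMap A₀ E ζ) ^ (k : ℕ)) := by
      simp only [kumSum, map_sum, map_mul, map_pow, hσs, AlgEquiv.commutes, mul_pow]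
      refine Finset.sum_congr rfl fun k _ => ?_
      rw [IsScalarTower.algebraMap_apply A₀ E (KumField A₀ x c e)]
      ring
    rw [hσu] at hy
    have h1 := congrFun (kumSum_injective (A₀ := A₀) x c e he hy)
    have hu : ∀ k : Fin e, (k : ℕ) ≠ 0 → u k = 0 := by
      intro k hk
      have h2 : u k * (algebraMap A₀ E ζ) ^ (k : ℕ) = u k := h1 k
      by_contra hne
      have h3 : (algebraMap A₀ E ζ) ^ (k : ℕ) = 1 := by
        have h4 : u k * (algebraMap A₀ E ζ) ^ (k : ℕ) = u k * 1 := by rw [h2, mul_one]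
        exact mul_left_cancel₀ hne h4
      exact hζE.pow_ne_one_of_pos_of_lt hk k.2 h3
    refine ⟨u ⟨0, he⟩, ?_⟩
    rw [algebraMap_eq_kumSum (A₀ := A₀) x c e he]
    congr 1
    funext k
    split_ifs with h
    · congr 1
      exact (Fin.ext h).symm
    · exact (hu k h).symm

end Aut

end Fermat.Agent.H48.Kum
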