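/-
helper48 (P-ES / KL-NORM-KUM, row 438): structure of `A₀[s]` and `K₀(s)` inside the Kummer cover
(every element is `∑_{k<e} f(a k) s^k` with coefficients in `A₀[x]`, resp. `K₀(x)`); `s` is
transcendental over `K₀`.
Namespace `Fermat.Agent.H48.Kum`.
-/
import Fermat.Agent.H48.KL.KumBasic

set_option autoImplicit false
set_option maxSynthPendingDepth 3
set_option linter.style.haveILetI false
set_option linter.unusedSectionVars false

noncomputable section

open Polynomial IntermediateField

namespace Fermat.Agent.H48.Kum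

open Fermat.Agent.H91.KLNorm

section Struct

variable {A₀ : Type} [CommRing A₀] {E : Type} [Field E] [Algebra A₀ E]
variable (x : E) (c : A₀) (e : ℕ) [Fact (Irreducible (KumPoly A₀ x c e))]

theorem kumSum_single (k : Fin e) (y : E) :
    kumSum (A₀ := A₀) x c e (Pi.single k y) =
      algebraMap E (KumField A₀ x c e) y * kumRoot A₀ x c e ^ (k : ℕ) := by
  classical
  rw [kumSum, Finset.sum_eq_single k]
  · simp
  · intro j _ hj
    simp [hj]
  · intro h
    exact absurd (Finset.mem_univ _) h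

theorem kumSum_finset_sum (he : 0 < e) {ι : Type*} (S : Finset ι) (u : ι → Fin e → E) :
    kumSum (A₀ := A₀) x c e (∑ i ∈ S, u i) = ∑ i ∈ S, kumSum x c e (u i) := by
  simp only [kumSum_eq x c e he, map_sum]

/-- `s ^ n = f((x - c)^(n / e)) * s ^ (n % e)` -/
theorem kumRoot_pow_eq (n : ℕ) :
    kumRoot A₀ x c e ^ n =
      algebraMap E (KumField A₀ x c e) ((x - algebraMap A₀ E c) ^ (n / e)) *
        kumRoot A₀ x c e ^ (n % e) := by
  conv_lhs => rw [← Nat.div_add_mod n e]
  rw [pow_add, pow_mul, kumRoot_pow, map_pow]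

/-- **Structure lemma.**  If `D` is a subring of `E` containing `x - c`, every polynomial
expression in `s` with coefficients in `D` is a sum `∑_{k<e} f(l k) s^k` with `l k ∈ D`. -/
theorem exists_kumSum_of_coeff_mem (he : 0 < e) (D : Subring E)
    (hD : x - algebraMap A₀ E c ∈ D) (P : E[X]) (hP : ∀ n, P.coeff n ∈ D) :
    ∃ l : Fin e → E, (∀ k, l k ∈ D) ∧
      P.eval₂ (algebraMap E (KumField A₀ x c e)) (kumRoot A₀ x c e) = kumSum x c e l := by
  classical
  refine ⟨∑ n ∈ Finset.range (P.natDegree + 1),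
    Pi.single (⟨n % e, Nat.mod_lt n he⟩ : Fin e)
      (P.coeff n * (x - algebraMap A₀ E c) ^ (n / e)), ?_, ?_⟩
  · intro k
    rw [Finset.sum_apply]
    refine Subring.sum_mem D fun n _ => ?_
    rw [Pi.single_apply]
    split_ifs
    · exact D.mul_mem (hP n) (D.pow_mem hD _)
    · exact D.zero_mem
  · rw [kumSum_finset_sum x c e he, Polynomial.eval₂_eq_sum_range]
    refine Finset.sum_congr rfl fun n _ => ?_
    rw [kumSum_single, map_mul, mul_assoc]
    congr 1
    exact kumRoot_pow_eq x c e n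

/-- `f` maps `A₀[x]` into `A₀[s]` -/
theorem algebraMap_mem_adjoinA {a : E} (ha : a ∈ Algebra.adjoin A₀ ({x} : Set E)) :
    algebraMap E (KumField A₀ x c e) a ∈
      Algebra.adjoin A₀ ({kumRoot A₀ x c e} : Set (KumField A₀ x c e)) := by
  have hx : algebraMap E (KumField A₀ x c e) x ∈
      Algebra.adjoin A₀ ({kumRoot A₀ x c e} : Set (KumField A₀ x c e)) := by
    have h1 : algebraMap E (KumField A₀ x c e) x =
        kumRoot A₀ x c e ^ e + algebraMap A₀ (KumField A₀ x c e) c := by
      rw [kumRoot_pow, map_sub, ← IsScalarTower.algebraMap_apply A₀ E (KumField A₀ x c e)]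
      ring
    rw [h1]
    exact Subalgebra.add_mem _ (Subalgebra.pow_mem _ (Algebra.self_mem_adjoin_singleton _ _) _)
      (Subalgebra.algebraMap_mem _ _)
  have hle : (Algebra.adjoin A₀ ({x} : Set E)).map
      (IsScalarTower.toAlgHom A₀ E (KumField A₀ x c e)) ≤
      Algebra.adjoin A₀ ({kumRoot A₀ x c e} : Set (KumField A₀ x c e)) := by
    rw [AlgHom.map_adjoin]
    apply Algebra.adjoin_le
    rintro _ ⟨y, hy, rfl⟩
    rw [Set.mem_singleton_iff] at hy
    subst hy
    exact hx
  exact hle ⟨a, ha, rfl⟩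

/-- every element of `A₀[s]` is `∑_{k<e} f(a k) s^k` with `a k ∈ A₀[x]` -/
theorem exists_kumSum_of_mem_adjoinA (he : 0 < e) {t : KumField A₀ x c e}
    (ht : t ∈ Algebra.adjoin A₀ ({kumRoot A₀ x c e} : Set (KumField A₀ x c e))) :
    ∃ a : Fin e → E, (∀ k, a k ∈ Algebra.adjoin A₀ ({x} : Set E)) ∧ t = kumSum x c e a := by
  rw [Algebra.adjoin_singleton_eq_range_aeval] at ht
  obtain ⟨P₀, rfl⟩ := ht
  have hD : x - algebraMap A₀ E c ∈ (Algebra.adjoin A₀ ({x} : Set E)).toSubring :=
    Subalgebra.sub_mem _ (Algebra.self_mem_adjoin_singleton _ _) (Subalgebra.algebraMap_mem _ _)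
  obtain ⟨l, hl, hl'⟩ := exists_kumSum_of_coeff_mem x c e he
    (Algebra.adjoin A₀ ({x} : Set E)).toSubring hD (P₀.map (algebraMap A₀ E)) (fun n => by
      rw [coeff_map]
      exact Subalgebra.algebraMap_mem _ _)
  refine ⟨l, hl, ?_⟩
  rw [← hl', Polynomial.eval₂_map, ← IsScalarTower.algebraMap_eq]
  rfl

end Struct

section StructK

variable {A₀ : Type} [CommRing A₀] (K₀ : Type) [Field K₀] [Algebra A₀ K₀]
  {E : Type} [Field E] [Algebra A₀ E] [Algebra K₀ E] [IsScalarTower A₀ K₀ E]
variable (x : E) (c : A₀) (e : ℕ) [Fact (Irreducible (KumPoly A₀ x c e))]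

theorem sub_mem_adjoinK : x - algebraMap A₀ E c ∈ IntermediateField.adjoin K₀ ({x} : Set E) := by
  refine sub_mem (IntermediateField.mem_adjoin_simple_self K₀ x) ?_
  rw [IsScalarTower.algebraMap_apply A₀ K₀ E]
  exact IntermediateField.algebraMap_mem _ _

theorem kumRoot_mem_adjoinK : kumRoot A₀ x c e ∈
    IntermediateField.adjoin K₀ ({kumRoot A₀ x c e} : Set (KumField A₀ x c e)) :=
  IntermediateField.mem_adjoin_simple_self K₀ _

/-- `f` maps `K₀(x)` into `K₀(s)` -/
theorem algebraMap_mem_adjoinK {a : E} (ha : a ∈ IntermediateField.adjoin K₀ ({x} : Set E)) :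
    algebraMap E (KumField A₀ x c e) a ∈
      IntermediateField.adjoin K₀ ({kumRoot A₀ x c e} : Set (KumField A₀ x c e)) := by
  have hx : algebraMap E (KumField A₀ x c e) x ∈
      IntermediateField.adjoin K₀ ({kumRoot A₀ x c e} : Set (KumField A₀ x c e)) := by
    have h1 : algebraMap E (KumField A₀ x c e) x =
        kumRoot A₀ x c e ^ e + algebraMap K₀ (KumField A₀ x c e) (algebraMap A₀ K₀ c) := by
      rw [kumRoot_pow, map_sub, IsScalarTower.algebraMap_apply A₀ K₀ E,
        ← IsScalarTower.algebraMap_apply K₀ E (KumField A₀ x c e)]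
      ring
    rw [h1]
    exact add_mem (pow_mem (kumRoot_mem_adjoinK K₀ x c e) _)
      (IntermediateField.algebraMap_mem _ _)
  have hle : (IntermediateField.adjoin K₀ ({x} : Set E)).map
      (IsScalarTower.toAlgHom K₀ E (KumField A₀ x c e)) ≤
      IntermediateField.adjoin K₀ ({kumRoot A₀ x c e} : Set (KumField A₀ x c e)) := by
    rw [IntermediateField.adjoin_map]
    apply IntermediateField.adjoin_le_iff.mpr
    rintro _ ⟨y, hy, rfl⟩
    rw [Set.mem_singleton_iff] at hy
    subst hy
    exact hx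
  exact hle ⟨a, ha, rfl⟩

/-- every element of `K₀(s)` is `∑_{k<e} f(l k) s^k` with `l k ∈ K₀(x)` -/
theorem exists_kumSum_of_mem_adjoinK (he : 0 < e) {t : KumField A₀ x c e}
    (ht : t ∈ IntermediateField.adjoin K₀ ({kumRoot A₀ x c e} : Set (KumField A₀ x c e))) :
    ∃ l : Fin e → E, (∀ k, l k ∈ IntermediateField.adjoin K₀ ({x} : Set E)) ∧
      t = kumSum x c e l := by
  set L := IntermediateField.adjoin K₀ ({x} : Set E) with hL
  set M := IntermediateField.adjoin L ({kumRoot A₀ x c e} : Set (KumField A₀ x c e)) with hM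
  have h1 : IntermediateField.adjoin K₀ ({kumRoot A₀ x c e} : Set (KumField A₀ x c e)) ≤
      M.restrictScalars K₀ := by
    apply IntermediateField.adjoin_le_iff.mpr
    rintro _ hy
    rw [Set.mem_singleton_iff] at hy
    subst hy
    exact IntermediateField.mem_adjoin_simple_self L _
  have ht' : t ∈ M := h1 ht
  have hint : IsIntegral L (kumRoot A₀ x c e) := by
    refine ⟨X ^ e - C (⟨x - algebraMap A₀ E c, sub_mem_adjoinK K₀ x c⟩ : L),
      monic_X_pow_sub_C _ he.ne', ?_⟩
    rw [eval₂_sub, eval₂_pow, eval₂_X, eval₂_C, kumRoot_pow, sub_eq_zero]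
    rfl
  have hM' : M.toSubalgebra = Algebra.adjoin L ({kumRoot A₀ x c e} : Set (KumField A₀ x c e)) :=
    IntermediateField.adjoin_simple_toSubalgebra_of_isAlgebraic hint.isAlgebraic
  have ht'' : t ∈ Algebra.adjoin L ({kumRoot A₀ x c e} : Set (KumField A₀ x c e)) := by
    rw [← hM']; exact ht'
  rw [Algebra.adjoin_singleton_eq_range_aeval] at ht''
  obtain ⟨P, rfl⟩ := ht''
  obtain ⟨l, hl, hl'⟩ := exists_kumSum_of_coeff_mem x c e he L.toSubring
    (sub_mem_adjoinK K₀ x c) (P.map (algebraMap L E)) (fun n => by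
      rw [coeff_map]
      exact (P.coeff n).2)
  refine ⟨l, hl, ?_⟩
  rw [← hl', Polynomial.eval₂_map, ← IsScalarTower.algebraMap_eq]
  rfl

/-- `s` is transcendental over `K₀` -/
theorem transcendental_kumRoot (hx : Transcendental K₀ x) :
    Transcendental K₀ (kumRoot A₀ x c e) := by
  intro hs
  apply hx
  have h1 : algebraMap E (KumField A₀ x c e) x =
      kumRoot A₀ x c e ^ e + algebraMap K₀ (KumField A₀ x c e) (algebraMap A₀ K₀ c) := by
    rw [kumRoot_pow, map_sub, IsScalarTower.algebraMap_apply A₀ K₀ E,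
      ← IsScalarTower.algebraMap_apply K₀ E (KumField A₀ x c e)]
    ring
  have h2 : IsAlgebraic K₀ (algebraMap E (KumField A₀ x c e) x) := by
    rw [h1]
    exact (hs.pow e).add (isAlgebraic_algebraMap _)
  exact (isAlgebraic_algebraMap_iff (algebraMap E (KumField A₀ x c e)).injective).mp h2

end StructK

end Fermat.Agent.H48.Kum
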