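/-
helper48 (P-ES / KL-NORM-KUM, row 438): a `K₀(x)`-basis of `E` is a `K₀(s)`-basis of the Kummer
cover `E₁`; traces and discriminants are preserved.
Namespace `Fermat.Agent.H48.Kum`.
-/
import Fermat.Agent.H48.KL.KumStruct
import Fermat.Agent.H48.KL.KumAut

set_option autoImplicit false
set_option maxSynthPendingDepth 3
set_option linter.style.haveILetI false
set_option linter.unusedSectionVars false

noncomputable section

open Polynomial IntermediateField

namespace Fermat.Agent.H48.Kum

open Fermat.Agent.H91.KLNorm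

section Main

variable {A₀ : Type} [CommRing A₀] (K₀ : Type) [Field K₀] [Algebra A₀ K₀]
  {E : Type} [Field E] [Algebra A₀ E] [Algebra K₀ E] [IsScalarTower A₀ K₀ E]
variable (x : E) (c : A₀) (e : ℕ) [Fact (Irreducible (KumPoly A₀ x c e))]

/-- `K₀(x)` -/
abbrev KX : IntermediateField K₀ E := IntermediateField.adjoin K₀ ({x} : Set E)

/-- `K₀(s)` -/
abbrev KS : IntermediateField K₀ (KumField A₀ x c e) :=
  IntermediateField.adjoin K₀ ({kumRoot A₀ x c e} : Set (KumField A₀ x c e))

/-- the structure map `E → (KumField A₀ x c e)` -/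
abbrev kumMap : E →+* KumField A₀ x c e := algebraMap E (KumField A₀ x c e)

/-- the inclusion `K₀(x) → K₀(s)` -/
def phi : (KX K₀ x) →+* (KS K₀ x c e) :=
  ((kumMap x c e).comp (algebraMap (KX K₀ x) E)).codRestrict (KS K₀ x c e).toSubfield.toSubring
    (fun a => algebraMap_mem_adjoinK K₀ x c e a.2)

theorem coe_phi (a : (KX K₀ x)) : ((phi K₀ x c e a : (KS K₀ x c e)) : (KumField A₀ x c e)) = kumMap x c e (a : E) := rfl

variable {n : ℕ} (b : Fin n → E)

/-- the family `f ∘ b` is linearly independent over `K₀(s)` -/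
theorem linearIndependent_map (he : 0 < e) (hb : LinearIndependent (KX K₀ x) b) :
    LinearIndependent (KS K₀ x c e) (fun i => kumMap x c e (b i)) := by
  classical
  rw [Fintype.linearIndependent_iff]
  intro g hg
  have hex : ∀ i, ∃ l : Fin e → E, (∀ k, l k ∈ (KX K₀ x)) ∧ ((g i : (KS K₀ x c e)) : (KumField A₀ x c e)) = kumSum x c e l :=
    fun i => exists_kumSum_of_mem_adjoinK K₀ x c e he (g i).2
  choose l hl hgl using hex
  have h1 : kumSum (A₀ := A₀) x c e (∑ i, fun k => b i * l i k) = kumSum x c e 0 := by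
    rw [kumSum_finset_sum x c e he, kumSum_zero, ← hg]
    refine Finset.sum_congr rfl fun i _ => ?_
    rw [← kumSum_mul_left, ← hgl i, mul_comm]
    rfl
  have h2 := congrFun (kumSum_injective (A₀ := A₀) x c e he h1)
  rw [Fintype.linearIndependent_iff] at hb
  have h3 : ∀ k i, l i k = 0 := by
    intro k
    have h4 := hb (fun i => (⟨l i k, hl i k⟩ : (KX K₀ x))) (by
      have h5 : ∑ i, b i * l i k = 0 := by
        have := h2 k
        rw [Finset.sum_apply] at this
        exact this
      rw [← h5]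
      refine Finset.sum_congr rfl fun i _ => ?_
      show (l i k) * b i = b i * l i k
      ring)
    intro i
    exact congrArg Subtype.val (h4 i)
  intro i
  apply Subtype.ext
  rw [hgl i]
  have : l i = 0 := funext fun k => h3 k i
  rw [this, kumSum_zero]
  rfl

/-- the family `f ∘ b` spans `(KumField A₀ x c e)` over `K₀(s)` -/
theorem span_map_eq_top (he : 0 < e) (B : Module.Basis (Fin n) (KX K₀ x) E) :
    ⊤ ≤ Submodule.span (KS K₀ x c e) (Set.range fun i => kumMap x c e (B i)) := by
  classical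
  intro t _
  obtain ⟨u, rfl⟩ := kumSum_surjective (A₀ := A₀) x c e he t
  rw [kumSum]
  refine Submodule.sum_mem _ fun k _ => ?_
  have hu : u k = ∑ i, (B.repr (u k) i : E) * B i := by
    conv_lhs => rw [← B.sum_repr (u k)]
    rfl
  rw [hu, map_sum, Finset.sum_mul]
  refine Submodule.sum_mem _ fun i _ => ?_
  have hmem : kumMap x c e (B.repr (u k) i : E) * kumRoot A₀ x c e ^ (k : ℕ) ∈ (KS K₀ x c e) :=
    mul_mem (algebraMap_mem_adjoinK K₀ x c e (B.repr (u k) i).2)
      (pow_mem (kumRoot_mem_adjoinK K₀ x c e) _)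
  have heq : kumMap x c e ((B.repr (u k) i : E) * B i) * kumRoot A₀ x c e ^ (k : ℕ) =
      (⟨_, hmem⟩ : (KS K₀ x c e)) • kumMap x c e (B i) := by
    rw [map_mul]
    show _ = (kumMap x c e (B.repr (u k) i : E) * kumRoot A₀ x c e ^ (k : ℕ)) * kumMap x c e (B i)
    ring
  rw [heq]
  exact Submodule.smul_mem _ _ (Submodule.subset_span ⟨i, rfl⟩)

/-- the basis `f ∘ B` of `(KumField A₀ x c e)` over `K₀(s)` -/
def mapBasis (he : 0 < e) (B : Module.Basis (Fin n) (KX K₀ x) E) : Module.Basis (Fin n) (KS K₀ x c e) (KumField A₀ x c e) :=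
  Module.Basis.mk (linearIndependent_map K₀ x c e (fun i => B i) he B.linearIndependent)
    (span_map_eq_top K₀ x c e he B)

theorem mapBasis_apply (he : 0 < e) (B : Module.Basis (Fin n) (KX K₀ x) E) (i : Fin n) :
    mapBasis K₀ x c e he B i = kumMap x c e (B i) := by
  rw [mapBasis, Module.Basis.mk_apply]

theorem mapBasis_repr (he : 0 < e) (B : Module.Basis (Fin n) (KX K₀ x) E) (z : E) (i : Fin n) :
    (mapBasis K₀ x c e he B).repr (kumMap x c e z) i = phi K₀ x c e (B.repr z i) := by
  classical
  have h1 : kumMap x c e z = ∑ j, phi K₀ x c e (B.repr z j) • mapBasis K₀ x c e he B j := by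
    conv_lhs => rw [← B.sum_repr z]
    rw [map_sum]
    refine Finset.sum_congr rfl fun j _ => ?_
    rw [mapBasis_apply]
    show kumMap x c e ((B.repr z j : E) * B j) = kumMap x c e (B.repr z j : E) * kumMap x c e (B j)
    rw [map_mul]
  rw [h1, Module.Basis.repr_sum_self]

theorem trace_map (he : 0 < e) (B : Module.Basis (Fin n) (KX K₀ x) E) (y : E) :
    Algebra.trace (KS K₀ x c e) (KumField A₀ x c e) (kumMap x c e y) = phi K₀ x c e (Algebra.trace (KX K₀ x) E y) := by
  classical
  rw [Algebra.trace_eq_matrix_trace (mapBasis K₀ x c e he B),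
    Algebra.trace_eq_matrix_trace B, Matrix.trace, Matrix.trace, map_sum]
  refine Finset.sum_congr rfl fun i _ => ?_
  rw [Matrix.diag_apply, Matrix.diag_apply, Algebra.leftMulMatrix_eq_repr_mul,
    Algebra.leftMulMatrix_eq_repr_mul, mapBasis_apply, ← map_mul, mapBasis_repr]

theorem discr_map (he : 0 < e) (B : Module.Basis (Fin n) (KX K₀ x) E) :
    Algebra.discr (KS K₀ x c e) (fun i => kumMap x c e (B i)) = phi K₀ x c e (Algebra.discr (KX K₀ x) (fun i => B i)) := by
  classical
  rw [Algebra.discr_def, Algebra.discr_def, RingHom.map_det]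
  congr 1
  ext i j
  rw [RingHom.mapMatrix_apply, Matrix.map_apply, Algebra.traceMatrix_apply,
    Algebra.traceMatrix_apply, Algebra.traceForm_apply, Algebra.traceForm_apply, ← map_mul,
    trace_map K₀ x c e he B]

end Main

end Fermat.Agent.H48.Kum
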