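/-
helper48 (P-ES / KL-NORM-KUM, row 438):
`Fermat.Agent.H48.Kum.kummer : Fermat.Agent.H91.KLNorm.KummerStatement`.
Namespace `Fermat.Agent.H48.Kum`.
-/
import Fermat.Agent.H48.KL.KumBasis

set_option autoImplicit false
set_option maxSynthPendingDepth 3
set_option linter.style.haveILetI false
set_option linter.unusedSectionVars false

noncomputable section

open Polynomial IntermediateField

namespace Fermat.Agent.H48.Kum

open Fermat.Agent.H91.KLNorm

section Final

variable {A₀ : Type} [CommRing A₀] {E : Type} [Field E] [Algebra A₀ E]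
variable (x : E) (c : A₀) (e : ℕ) [Fact (Irreducible (KumPoly A₀ x c e))]

/-- the inclusion `A₀[x] → A₀[s]` -/
def psi : ↥(Algebra.adjoin A₀ ({x} : Set E)) →+*
    ↥(Algebra.adjoin A₀ ({kumRoot A₀ x c e} : Set (KumField A₀ x c e))) :=
  ((kumMap x c e).comp (algebraMap ↥(Algebra.adjoin A₀ ({x} : Set E)) E)).codRestrict
    (Algebra.adjoin A₀ ({kumRoot A₀ x c e} : Set (KumField A₀ x c e)))
    (fun a => algebraMap_mem_adjoinA x c e a.2)

/-- integrality over `A₀[x]` implies integrality of the image over `A₀[s]` -/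
theorem isIntA_map {y : E} (hy : IsIntA A₀ x y) :
    IsIntA A₀ (kumRoot A₀ x c e) (kumMap x c e y) :=
  IsIntegral.map_of_comp_eq (psi x c e) (kumMap x c e) (by ext a; rfl) hy

/-- an element of `A₀[x]` divisible by `ϖ` in `A₀[s]` is divisible by `ϖ` in `A₀[x]` -/
theorem inPiA_of_map (he : 0 < e) (ϖ : A₀) {d : E}
    (h : InPiA A₀ ϖ (kumRoot A₀ x c e) (kumMap x c e d)) : InPiA A₀ ϖ x d := by
  obtain ⟨d', hd', hfd⟩ := h
  obtain ⟨a, ha, rfl⟩ := exists_kumSum_of_mem_adjoinA x c e he hd'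
  rw [IsScalarTower.algebraMap_apply A₀ E (KumField A₀ x c e), kumSum_mul_left] at hfd
  have h1 : kumMap x c e d = kumSum (A₀ := A₀) x c e (fun k => if (k : ℕ) = 0 then d else 0) :=
    algebraMap_eq_kumSum x c e he d
  rw [h1] at hfd
  have h2 := congrFun (kumSum_injective (A₀ := A₀) x c e he hfd) ⟨0, he⟩
  simp only [if_true] at h2
  exact ⟨a ⟨0, he⟩, ha _, h2⟩

end Final

/-- **KL-NORM-KUM.**  The Kummer cover `E₁ = E(s)`, `s ^ e = x - c`. -/
theorem kummer : Fermat.Agent.H91.KLNorm.KummerStatement := by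
  intro A₀ _ _ _ K₀ _ _ _ _ E _ _ _ _ ϖ x hϖ hx hfin hGB c e he heu ζ hζ _
  classical
  have hinj : Function.Injective (algebraMap A₀ E) := by
    rw [IsScalarTower.algebraMap_eq A₀ K₀ E]
    exact (algebraMap K₀ E).injective.comp (IsFractionRing.injective A₀ K₀)
  obtain ⟨n, b, hn, hint, d, hd, hdd, hdpi⟩ := hGB
  have hd0 : d ≠ 0 := by
    rintro rfl
    exact hdpi ⟨0, zero_mem _, by simp⟩
  have hdisc : Algebra.discr (KX K₀ x) b ≠ 0 := by
    intro h0
    apply hd0
    rw [hdd, h0, map_zero]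
  have hli : LinearIndependent (KX K₀ x) b := by
    by_contra hli
    exact hdisc (Algebra.discr_zero_of_not_linearIndependent _ hli)
  haveI : Nonempty (Fin n) := ⟨⟨0, by rw [← hn]; exact Module.finrank_pos⟩⟩
  let B : Module.Basis (Fin n) (KX K₀ x) E :=
    basisOfLinearIndependentOfCardEqFinrank hli (by simp [hn])
  have hB : ∀ i, B i = b i := by
    intro i
    simp [B]
  refine ⟨transcendental_kumRoot K₀ x c e hx,
    Module.Finite.of_basis (mapBasis K₀ x c e he B), ?_, exists_aut x c e he hinj ζ hζ⟩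
  refine ⟨n, fun i => kumMap x c e (b i), ?_, ?_, kumMap x c e d,
    algebraMap_mem_adjoinA x c e hd, ?_, ?_⟩
  · rw [Module.finrank_eq_card_basis (mapBasis K₀ x c e he B), Fintype.card_fin]
  · intro i
    exact isIntA_map x c e (hint i)
  · have h1 := discr_map K₀ x c e he B
    simp only [hB] at h1
    rw [h1, hdd]
    rfl
  · intro h
    exact hdpi (inPiA_of_map x c e he ϖ h)

end Fermat.Agent.H48.Kum
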